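import Mathlib

/-!
# S13 / STRUCT-W : shared definitions

`K` a field, `W : WeierstrassCurve.Affine K`, `R := W.CoordinateRing`.

* `evalAt W h`    : evaluation `R →ₐ[K] K` at a point `(x, y)` of the curve (`h : W.Equation x y`)
* `DW W`          : the invariant derivation of `R`  (`D X = W_Y`, `D Y = - W_X`)
* `ordInf W f`    : pole order at infinity = `natDegree (Algebra.norm K[X] f)`
* `cA W f, cB W f`: the coordinates of `f = a + b Y`
* `wt W`          : the `K`-linear weight map `R → K[X]`, `a + b Y ↦ a(T^2) + T^3 b(T^2)`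
* `fb W d`        : the monomial of weight `d` (`d ≠ 1`)
* `idx j`         : the list of weights `0, 2, 3, 4, …`
* `Wr W n`        : the Wronskian `det (D^i (fb (idx j)))_{i, j < n}`
-/

set_option autoImplicit false

open Polynomial
open scoped Polynomial.Bivariate

namespace Fermat.Agent.S13.StructW

open WeierstrassCurve WeierstrassCurve.Affine

variable {K : Type*} [Field K] (W : Affine K)

/-! ### evaluation at a point -/

/-- Evaluation of an element of the coordinate ring at a point of the curve. -/
noncomputable def evalAt {x y : K} (h : W.Equation x y) : W.CoordinateRing →ₐ[K] K :=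
  AdjoinRoot.liftAlgHom W.polynomial (Polynomial.aeval x : K[X] →ₐ[K] K) y (by
    have h' : W.polynomial.evalEval x y = 0 := h
    rw [← h', ← eval₂_evalRingHom]; rfl)

lemma evalAt_mk {x y : K} (h : W.Equation x y) (p : K[X][Y]) :
    evalAt W h (CoordinateRing.mk W p) = p.evalEval x y := by
  rw [evalAt, AdjoinRoot.liftAlgHom_mk, ← eval₂_evalRingHom]; rfl

lemma evalAt_eq_zero_iff {x y : K} (h : W.Equation x y) (f : W.CoordinateRing) :
    evalAt W h f = 0 ↔ f ∈ CoordinateRing.XYIdeal W x (C y) := by
  obtain ⟨p, rfl⟩ := AdjoinRoot.mk_surjective f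
  have hI : CoordinateRing.XYIdeal W x (C y) =
      Ideal.map (CoordinateRing.mk W) (Ideal.span {C (X - C x), Y - C (C y)}) := by
    simp only [CoordinateRing.XYIdeal, CoordinateRing.XClass, CoordinateRing.YClass,
      ← Set.image_pair, ← Ideal.map_span]
  have h1 : evalAt W h (AdjoinRoot.mk W.polynomial p) = p.evalEval x y := evalAt_mk W h p
  rw [h1, hI]
  constructor
  · intro hp
    exact Ideal.mem_map_of_mem _ (mem_span_C_X_sub_C_X_sub_C_iff_eval_eval_eq_zero.mpr hp)
  · intro hp
    rw [Ideal.mem_map_iff_of_surjective _ AdjoinRoot.mk_surjective] at hp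
    obtain ⟨q, hq, hqp⟩ := hp
    have h2 : q.evalEval x y = 0 := mem_span_C_X_sub_C_X_sub_C_iff_eval_eval_eq_zero.mp hq
    have h3 := evalAt_mk W h q
    rw [h2] at h3
    have h4 := evalAt_mk W h p
    have hqp' : CoordinateRing.mk W q = CoordinateRing.mk W p := hqp
    rw [← hqp', h3] at h4
    exact h4.symm

/-! ### the invariant derivation -/

/-- `∂/∂X` on `K[X][Y]` (coefficientwise derivative). -/
noncomputable def dX : Derivation K K[X][Y] K[X][Y] :=
  (PolynomialModule.equivPolynomialSelf (R := K[X])).toLinearMap.compDer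
    ((Polynomial.derivative' : Derivation K K[X] K[X]).mapCoeffs)

/-- `∂/∂Y` on `K[X][Y]`. -/
noncomputable def dY : Derivation K K[X][Y] K[X][Y] :=
  (Polynomial.derivative' : Derivation K[X] K[X][Y] K[X][Y]).restrictScalars K

/-- The derivation `W_Y ∂/∂X - W_X ∂/∂Y` of `K[X][Y]`. -/
noncomputable def D0 : Derivation K K[X][Y] K[X][Y] :=
  W.polynomialY • dX (K := K) - W.polynomialX • dY (K := K)

@[simp] lemma dX_C (a : K[X]) : dX (K := K) (C a) = C (derivative a) := by
  simp [dX]

@[simp] lemma dX_Y : dX (K := K) (Y : K[X][Y]) = 0 := by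
  simp [dX]

@[simp] lemma dY_apply (p : K[X][Y]) : dY (K := K) p = derivative p := by
  simp [dY]

lemma dX_polynomial : dX (K := K) W.polynomial = W.polynomialX := by
  simp only [Affine.polynomial, Affine.polynomialX, map_add, map_sub, Derivation.leibniz,
    Derivation.leibniz_pow, dX_C, dX_Y]
  simp
  simp only [map_ofNat]
  ring1

lemma dY_polynomial : dY (K := K) W.polynomial = W.polynomialY := by
  have h3 : derivative ((C X : K[X][Y]) ^ 3) = 0 := by rw [← C_pow, derivative_C]
  have h2 : derivative ((C X : K[X][Y]) ^ 2) = 0 := by rw [← C_pow, derivative_C]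
  simp only [Affine.polynomial, Affine.polynomialY, dY_apply]
  simp [h3, h2]
  simp only [map_ofNat]
  ring1

lemma D0_apply (p : K[X][Y]) :
    D0 W p = W.polynomialY * dX (K := K) p - W.polynomialX * dY (K := K) p := by
  simp [D0]

lemma D0_polynomial : D0 W W.polynomial = 0 := by
  rw [D0_apply, dX_polynomial, dY_polynomial]; ring

/-- The quotient map `K[X][Y] → R` as a `K`-algebra hom. -/
noncomputable def mkK : K[X][Y] →ₐ[K] W.CoordinateRing :=
  (AdjoinRoot.mkₐ W.polynomial).restrictScalars K

lemma mkK_apply (p : K[X][Y]) : mkK W p = CoordinateRing.mk W p := rfl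

lemma mkK_surjective : Function.Surjective (mkK W) := AdjoinRoot.mk_surjective

lemma mkK_D0_eq_zero (p : K[X][Y]) (hp : mkK W p = 0) : mkK W (D0 W p) = 0 := by
  rw [mkK_apply, AdjoinRoot.mk_eq_zero] at hp
  obtain ⟨q, rfl⟩ := hp
  rw [Derivation.leibniz, D0_polynomial, smul_zero, add_zero, smul_eq_mul, map_mul, mkK_apply,
    AdjoinRoot.mk_self, zero_mul]

/-- The invariant derivation of the coordinate ring: `D X = W_Y`, `D Y = - W_X`. -/
noncomputable def DW : Derivation K W.CoordinateRing W.CoordinateRing :=
  Derivation.liftOfSurjective (f := mkK W) (mkK_surjective W) (d := D0 W) (mkK_D0_eq_zero W)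

lemma DW_mk (p : K[X][Y]) : DW W (CoordinateRing.mk W p) = CoordinateRing.mk W (D0 W p) :=
  Derivation.liftOfSurjective_apply (f := mkK W) (mkK_surjective W) (d := D0 W)
    (mkK_D0_eq_zero W) p

lemma DW_mk_C (a : K[X]) :
    DW W (CoordinateRing.mk W (C a)) = CoordinateRing.mk W (W.polynomialY * C (derivative a)) := by
  rw [DW_mk, D0_apply, dX_C, dY_apply, derivative_C, mul_zero, sub_zero]

lemma DW_mk_Y : DW W (CoordinateRing.mk W Y) = - CoordinateRing.mk W W.polynomialX := by
  rw [DW_mk, D0_apply, dX_Y, dY_apply, derivative_X, mul_zero, mul_one, zero_sub, map_neg]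

/-! ### order at infinity, coordinates and the weight map -/

/-- The pole order at infinity of `f`, i.e. the degree of its norm. -/
noncomputable def ordInf (f : W.CoordinateRing) : ℕ := (Algebra.norm K[X] f).natDegree

/-- first coordinate of `f = a + b Y` -/
noncomputable def cA (f : W.CoordinateRing) : K[X] := (CoordinateRing.basis W).repr f 0
/-- second coordinate of `f = a + b Y` -/
noncomputable def cB (f : W.CoordinateRing) : K[X] := (CoordinateRing.basis W).repr f 1

lemma eq_cA_add_cB (f : W.CoordinateRing) :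
    f = cA W f • (1 : W.CoordinateRing) + cB W f • CoordinateRing.mk W Y := by
  conv_lhs => rw [← (CoordinateRing.basis W).sum_repr f]
  rw [Fin.sum_univ_two, CoordinateRing.basis_zero, CoordinateRing.basis_one]
  rfl

lemma cA_smul_add (p q : K[X]) :
    cA W (p • (1 : W.CoordinateRing) + q • CoordinateRing.mk W Y) = p := by
  rw [cA, ← CoordinateRing.basis_zero, ← CoordinateRing.basis_one, map_add, map_smul, map_smul,
    Module.Basis.repr_self, Module.Basis.repr_self]
  simp

lemma cB_smul_add (p q : K[X]) :
    cB W (p • (1 : W.CoordinateRing) + q • CoordinateRing.mk W Y) = q := by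
  rw [cB, ← CoordinateRing.basis_zero, ← CoordinateRing.basis_one, map_add, map_smul, map_smul,
    Module.Basis.repr_self, Module.Basis.repr_self]
  simp

/-- The weight map `a + b Y ↦ a(T²) + T³ b(T²)`; `X` has weight `2`, `Y` has weight `3`. -/
noncomputable def wt : W.CoordinateRing →ₗ[K] K[X] where
  toFun f := (cA W f).comp (X ^ 2) + X ^ 3 * (cB W f).comp (X ^ 2)
  map_add' f g := by
    simp only [cA, cB, map_add, Finsupp.add_apply, add_comp, mul_add]; ring
  map_smul' c f := by
    simp only [cA, cB, RingHom.id_apply]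
    rw [← algebraMap_smul K[X] c f, map_smul]
    simp only [Finsupp.smul_apply, smul_eq_mul, algebraMap_eq, mul_comp, C_comp, Algebra.smul_def,
      mul_add]
    ring

lemma wt_apply (f : W.CoordinateRing) :
    wt W f = (cA W f).comp (X ^ 2) + X ^ 3 * (cB W f).comp (X ^ 2) := rfl

/-! ### the monomial basis and the Wronskian -/

/-- The monomial of weight `d` : `X^(d/2)` for `d` even, `X^((d-3)/2) Y` for `d` odd
(meaningful for `d ≠ 1`). -/
noncomputable def fb (d : ℕ) : W.CoordinateRing :=
  if Even d then CoordinateRing.mk W (C (X ^ (d / 2)))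
  else CoordinateRing.mk W (C (X ^ ((d - 3) / 2)) * Y)

/-- the list of weights `0, 2, 3, 4, …` (the gap sequence at infinity) -/
def idx (j : ℕ) : ℕ := if j = 0 then 0 else j + 1

/-- The Wronskian of the basis `fb (idx j)`, `j < n`, of `L(n O)` w.r.t. the invariant derivation. -/
noncomputable def Wr (n : ℕ) : W.CoordinateRing :=
  Matrix.det (Matrix.of fun (i j : Fin n) => (DW W)^[(i : ℕ)] (fb W (idx (j : ℕ))))

/-- The leading coefficient of `Wr W n`: the Vandermonde determinant of the weights. -/
def cW (n : ℕ) : ℤ := ∏ i : Fin n, ∏ j ∈ Finset.Ioi i, ((idx (j : ℕ) : ℤ) - (idx (i : ℕ) : ℤ))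

end Fermat.Agent.S13.StructW
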